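/-
S15 / Dict / AN : the norm function `T(z) = ∏_{k<N} (℘_L(z + k z0) - e)`; soft properties.
Architect helper260.
-/
import Fermat.Agent.S15.Dict.AN.Coset.Cyclic
import Fermat.Agent.S15.Dict.AN.Tools.LiouvilleCor
import Fermat.Agent.S15.Dict.AN.Tools.POrder

set_option autoImplicit false

namespace Fermat.Agent.S15.Dict.AN

open Filter Topology

/-- `T(z) = ∏_{k<N} (℘_L(z + k z0) - e)`. -/
noncomputable def starT (L : PeriodPair) (N : ℕ) (z0 e z : ℂ) : ℂ :=
  ∏ k ∈ Finset.range N, (L.weierstrassP (z + (k : ℂ) * z0) - e)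

variable {L L' : PeriodPair} {N : ℕ} {z0 : ℂ}

theorem meromorphic_starT (L : PeriodPair) (N : ℕ) (z0 e : ℂ) : Meromorphic (starT L N z0 e) := by
  intro x
  unfold starT
  refine MeromorphicAt.fun_prod fun k _ => ?_
  refine MeromorphicAt.sub ?_ (MeromorphicAt.const e x)
  exact (L.meromorphic_weierstrassP (x + (k : ℂ) * z0)).comp_analyticAt
    (g := fun z => z + (k : ℂ) * z0) (by fun_prop)

/-- `T(z + z0) = T(z)`: `Finset.prod_range_succ` / `Finset.prod_range_succ'` and
`℘(z + N z0) = ℘ z`. -/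
theorem CyclicData.starT_add_z0 (D : CyclicData L L' N z0) (e z : ℂ) :
    starT L N z0 e (z + z0) = starT L N z0 e z := by
  obtain ⟨M, rfl⟩ : ∃ M, N = M + 1 := ⟨N - 1, by have := Cyclic_pos D; omega⟩
  unfold starT
  rw [Finset.prod_range_succ,
    Finset.prod_range_succ' (fun k : ℕ => L.weierstrassP (z + (k : ℂ) * z0) - e)]
  congr 1
  · refine Finset.prod_congr rfl fun k _ => ?_
    have : z + z0 + (k : ℂ) * z0 = z + ((k + 1 : ℕ) : ℂ) * z0 := by push_cast; ring
    rw [this]
  · have : z + z0 + (M : ℂ) * z0 = z + ((0 : ℕ) : ℂ) * z0 + ((M + 1 : ℕ) : ℂ) * z0 := by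
      push_cast; ring
    rw [this, P_add_mem L _ D.mem]

/-- `T` is `L'`-periodic (`periodic_of_sup`, `periodic_of_span`, `D.lattice_eq`). -/
theorem CyclicData.starT_periodic (D : CyclicData L L' N z0) (e : ℂ) :
    ∀ z : ℂ, ∀ l ∈ L'.lattice, starT L N z0 e (z + l) = starT L N z0 e z := by
  rw [D.lattice_eq]
  refine periodic_of_sup (fun z l hl => ?_) (periodic_of_span ?_)
  · unfold starT
    refine Finset.prod_congr rfl fun k _ => ?_
    have : z + l + (k : ℂ) * z0 = z + (k : ℂ) * z0 + l := by ring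
    rw [this, P_add_mem L _ hl]
  · intro s hs z
    rw [Set.mem_singleton_iff] at hs
    subst hs
    exact D.starT_add_z0 e z

/-- `z + k z0 ∉ L` if `z ∉ L'`. -/
theorem CyclicData.add_notMem (D : CyclicData L L' N z0) {z : ℂ} (hz : z ∉ L'.lattice) (k : ℕ) :
    z + (k : ℂ) * z0 ∉ L.lattice := by
  intro h
  apply hz
  have := sub_mem (D.le h) (D.nat_mul_mem k)
  rwa [add_sub_cancel_right] at this

theorem CyclicData.analyticAt_starT (D : CyclicData L L' N z0) (e : ℂ) {z : ℂ}
    (hz : z ∉ L'.lattice) : AnalyticAt ℂ (starT L N z0 e) z := by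
  unfold starT
  refine Finset.analyticAt_fun_prod _ fun k _ => ?_
  refine AnalyticAt.sub ?_ analyticAt_const
  exact (analyticAt_P L (D.add_notMem hz k)).fun_comp (g := L.weierstrassP)
    (f := fun z => z + (k : ℂ) * z0) (by fun_prop)

end Fermat.Agent.S15.Dict.AN
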