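/-
S15 / Dict / AN : orders of the norm function `T`.  Architect helper260.
-/
import Fermat.Agent.S15.Dict.AN.Star.Defs

set_option autoImplicit false

namespace Fermat.Agent.S15.Dict.AN

open Filter Topology

variable {L L' : PeriodPair} {N : ℕ} {z0 : ℂ}

private theorem Orders_mer (L : PeriodPair) (a e x : ℂ) :
    MeromorphicAt (fun z => L.weierstrassP (z + a) - e) x :=
  ((L.meromorphic_weierstrassP (x + a)).comp_analyticAt (g := fun z => z + a) (by fun_prop)).sub
    (MeromorphicAt.const e x)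

private theorem Orders_an (L : PeriodPair) (a e x : ℂ) (h : x + a ∉ L.lattice) :
    AnalyticAt ℂ (fun z => L.weierstrassP (z + a) - e) x :=
  (AnalyticAt.comp (f := fun z => z + a) (analyticAt_P L h) (by fun_prop)).sub analyticAt_const

/-- General principle: a finite product in which one factor has order `≥ m` at `x` and all the
others are analytic at `x` has order `≥ m` (`Finset.mul_prod_erase`, `order_mul_ge`,
`Finset.analyticAt_fun_prod`/`Finset.analyticAt_prod`, `AnalyticAt.meromorphicOrderAt_nonneg`). -/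
theorem order_prod_ge {ι : Type} [DecidableEq ι] (s : Finset ι) (f : ι → ℂ → ℂ) (x : ℂ) {i₀ : ι}
    (hi₀ : i₀ ∈ s) {m : ℤ} (hmer : MeromorphicAt (f i₀) x)
    (hm : (m : WithTop ℤ) ≤ meromorphicOrderAt (f i₀) x)
    (han : ∀ i ∈ s, i ≠ i₀ → AnalyticAt ℂ (f i) x) :
    (m : WithTop ℤ) ≤ meromorphicOrderAt (fun z => ∏ i ∈ s, f i z) x := by
  have h1 : (fun z => ∏ i ∈ s, f i z) = fun z => f i₀ z * ∏ i ∈ s.erase i₀, f i z := by
    funext z
    exact (Finset.mul_prod_erase s (fun i => f i z) hi₀).symm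
  rw [h1]
  have han' : AnalyticAt ℂ (fun z => ∏ i ∈ s.erase i₀, f i z) x :=
    Finset.analyticAt_fun_prod _ (fun i hi =>
      han i (Finset.mem_of_mem_erase hi) (Finset.ne_of_mem_erase hi))
  have h0 : ((0 : ℤ) : WithTop ℤ) ≤ meromorphicOrderAt (fun z => ∏ i ∈ s.erase i₀, f i z) x :=
    han'.meromorphicOrderAt_nonneg
  have h2 := order_mul_ge hmer han'.meromorphicAt hm h0
  rwa [add_zero] at h2

/-- At `z ∈ L'`: exactly one factor (`k` with `z + k z0 ∈ L`, `D.exists_add_mem`) has a pole, of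
order `2` (`order_comp_add`, `order_P_sub_const`); for `k' ≠ k`, `z + k' z0 ∉ L`
(`D.eq_of_sub_mem`), so the factor is analytic. -/
theorem CyclicData.order_starT_lattice (D : CyclicData L L' N z0) (e : ℂ) {z : ℂ}
    (hz : z ∈ L'.lattice) :
    ((-2 : ℤ) : WithTop ℤ) ≤ meromorphicOrderAt (starT L N z0 e) z := by
  obtain ⟨k, hk, hmem⟩ := D.exists_add_mem hz
  refine order_prod_ge (Finset.range N) (fun (k : ℕ) z => L.weierstrassP (z + (k : ℂ) * z0) - e) z
    (Finset.mem_range.mpr hk) (Orders_mer L _ e z) ?_ ?_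
  · have h1 := order_comp_add (fun z => L.weierstrassP z - e) ((k : ℂ) * z0) z
    rw [order_P_sub_const L hmem e] at h1
    exact le_of_eq h1.symm
  · intro k' hk' hne
    refine Orders_an L _ e z (fun hm => hne ?_)
    refine D.eq_of_sub_mem (Finset.mem_range.mp hk') hk ?_
    have h2 := sub_mem hm hmem
    have e2 : z + (k' : ℂ) * z0 - (z + (k : ℂ) * z0) = (k' : ℂ) * z0 - (k : ℂ) * z0 := by ring
    rwa [e2] at h2

/-- At `z` with `z + h ∈ L'` (`h` a half period of `L`): the factor `k` with `z + h + k z0 ∈ L`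
has order `≥ 2` (`two_le_order_P_sub` at `x = z + k z0 ≡ -h`: `℘ x = ℘ h` by `P_eq_of_add_mem`,
`℘' x = -℘' h = 0`); the other factors are analytic since `z ∉ L'` (as `h ∉ L'`:
`N h ∈ L`, `2 h ∈ L`, `N` odd) and `D.add_notMem`. -/
theorem CyclicData.order_starT_half (D : CyclicData L L' N z0) {h : ℂ} (h2 : 2 * h ∈ L.lattice)
    (hn : h ∉ L.lattice) {z : ℂ} (hz : z + h ∈ L'.lattice) :
    ((2 : ℤ) : WithTop ℤ) ≤ meromorphicOrderAt (starT L N z0 (L.weierstrassP h)) z := by
  obtain ⟨k, hk, hmem⟩ := D.exists_add_mem hz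
  have hh' : h ∉ L'.lattice := by
    intro hm
    obtain ⟨m, hm2⟩ := D.odd
    have h3 := D.mul_mem hm
    have h4 : (m : ℂ) * (2 * h) ∈ L.lattice := by
      have := Submodule.smul_mem L.lattice (m : ℤ) h2
      rwa [zsmul_eq_mul, Int.cast_natCast] at this
    have h5 := sub_mem h3 h4
    have e5 : (N : ℂ) * h - (m : ℂ) * (2 * h) = h := by
      rw [hm2]
      push_cast
      ring
    rw [e5] at h5
    exact hn h5
  have hz' : z ∉ L'.lattice := by
    intro hm
    have := sub_mem hz hm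
    rw [add_sub_cancel_left] at this
    exact hh' this
  have hxh : z + (k : ℂ) * z0 + h ∈ L.lattice := by
    have e1 : z + (k : ℂ) * z0 + h = z + h + (k : ℂ) * z0 := by ring
    rwa [e1]
  refine order_prod_ge (Finset.range N)
    (fun (k : ℕ) z => L.weierstrassP (z + (k : ℂ) * z0) - L.weierstrassP h) z
    (Finset.mem_range.mpr hk) (Orders_mer L _ _ z) ?_
    (fun k' _ _ => Orders_an L _ _ z (D.add_notMem hz' k'))
  have h1 := order_comp_add (fun z => L.weierstrassP z - L.weierstrassP h) ((k : ℂ) * z0) z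
  have h6 := two_le_order_P_sub L (h := h) (D.add_notMem hz' k) (P_eq_of_add_mem L hxh)
    (by rw [P'_eq_neg_of_add_mem L hxh, P'_eq_zero_of_two_mul_mem L h2, neg_zero])
  rw [← h1] at h6
  exact h6

end Fermat.Agent.S15.Dict.AN
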