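/-
S15 / Dict / AN : `T(z) (℘_{L'}(z + h) - ℘_{L'} h)` is constant.  Architect helper260.
-/
import Fermat.Agent.S15.Dict.AN.Star.Orders

set_option autoImplicit false

namespace Fermat.Agent.S15.Dict.AN

open Filter Topology

variable {L L' : PeriodPair} {N : ℕ} {z0 : ℂ}

/-- A half period of `L` outside `L` stays outside the odd index overlattice `L'`. -/
private theorem Const_half_notMem (D : CyclicData L L' N z0) {h : ℂ} (h2 : 2 * h ∈ L.lattice)
    (hn : h ∉ L.lattice) : h ∉ L'.lattice := by
  intro hh
  obtain ⟨m, hm⟩ := D.odd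
  have h1 := D.mul_mem hh
  have h3 : (m : ℂ) * (2 * h) ∈ L.lattice := by
    have := Submodule.smul_mem L.lattice (m : ℤ) h2
    rwa [zsmul_eq_mul, Int.cast_natCast] at this
  apply hn
  have e : h = (N : ℂ) * h - (m : ℂ) * (2 * h) := by
    rw [hm]
    push_cast
    ring
  rw [e]
  exact sub_mem h1 h3

/-- Liouville for `L'` applied to `Φ(z) = T(z) (℘_{L'}(z+h) - ℘_{L'} h)`.
Periodic: `D.starT_periodic`, `P_add_mem`.  Orders:
* `z ∈ L'`: `T` has order `≥ -2` (`order_starT_lattice`); the second factor has at `z` the order of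
  `℘_{L'} - ℘_{L'} h` at `z + h`, which is `≥ 2` (`two_le_order_P_sub` for `L'`; `2h ∈ L ≤ L'`,
  `z + h ∉ L'` as `h ∉ L'`).
* `z + h ∈ L'`: `T` has order `≥ 2` (`order_starT_half`), the second factor order `-2`.
* otherwise both are analytic. -/
theorem CyclicData.star_const (D : CyclicData L L' N z0) {h : ℂ} (h2 : 2 * h ∈ L.lattice)
    (hn : h ∉ L.lattice) :
    ∃ C : ℂ, ∀ z, z ∉ L'.lattice → z + h ∉ L'.lattice →
      starT L N z0 (L.weierstrassP h) z * (L'.weierstrassP (z + h) - L'.weierstrassP h) = C := by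
  have hh' : h ∉ L'.lattice := Const_half_notMem D h2 hn
  have h2' : 2 * h ∈ L'.lattice := D.le h2
  set e := L.weierstrassP h with he
  set g : ℂ → ℂ := fun z => L'.weierstrassP z - L'.weierstrassP h with hg
  have hgm : Meromorphic g := fun x =>
    (L'.meromorphic_weierstrassP x).sub (MeromorphicAt.const _ x)
  have hord_g : ∀ x, meromorphicOrderAt (fun z => g (z + h)) x = meromorphicOrderAt g (x + h) :=
    fun x => order_comp_add g h x
  have hgm' : Meromorphic (fun z => g (z + h)) := by
    intro x
    have h1 : AnalyticAt ℂ (fun z : ℂ => z + h) x := by fun_prop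
    exact MeromorphicAt.comp_analyticAt (g := fun z : ℂ => z + h) (hgm (x + h)) h1
  have hT : Meromorphic (starT L N z0 e) := meromorphic_starT L N z0 e
  have hΦ : Meromorphic (fun z => starT L N z0 e z * g (z + h)) := fun x => (hT x).mul (hgm' x)
  have hper : ∀ z : ℂ, ∀ l ∈ L'.lattice,
      starT L N z0 e (z + l) * g (z + l + h) = starT L N z0 e z * g (z + h) := by
    intro z l hl
    rw [D.starT_periodic e z l hl]
    congr 1
    show L'.weierstrassP (z + l + h) - _ = L'.weierstrassP (z + h) - _
    rw [add_right_comm, P_add_mem L' _ hl]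
  have han : ∀ z, z ∉ L'.lattice → z + h ∉ L'.lattice →
      AnalyticAt ℂ (fun z => starT L N z0 e z * g (z + h)) z := by
    intro z hz hzh
    have h1 : AnalyticAt ℂ (fun z : ℂ => z + h) z := by fun_prop
    have h3 : AnalyticAt ℂ g (z + h) := (analyticAt_P L' hzh).sub analyticAt_const
    exact (D.analyticAt_starT e hz).mul (AnalyticAt.fun_comp (f := fun z : ℂ => z + h) h3 h1)
  have hord : ∀ z, 0 ≤ meromorphicOrderAt (fun z => starT L N z0 e z * g (z + h)) z := by
    intro z
    by_cases hz : z ∈ L'.lattice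
    · have hzh : z + h ∉ L'.lattice := fun hc => hh' (by
        have := sub_mem hc hz
        rwa [add_sub_cancel_left] at this)
      have hs : z + h - h ∈ L'.lattice := by rwa [add_sub_cancel_right]
      have h3 : (2 : WithTop ℤ) ≤ meromorphicOrderAt g (z + h) :=
        two_le_order_P_sub L' hzh (P_eq_of_sub_mem L' hs)
          (by rw [P'_eq_of_sub_mem L' hs, P'_eq_zero_of_two_mul_mem L' h2'])
      have h4 := order_mul_ge (hT z) (hgm' z) (m := -2) (n := 2) (D.order_starT_lattice e hz)
        (by rw [hord_g]; exact_mod_cast h3)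
      exact_mod_cast h4
    · by_cases hzh : z + h ∈ L'.lattice
      · have h3 : meromorphicOrderAt g (z + h) = ((-2 : ℤ) : WithTop ℤ) :=
          order_P_sub_const L' hzh _
        have h4 := order_mul_ge (hT z) (hgm' z) (m := 2) (n := -2) (D.order_starT_half h2 hn hzh)
          (by rw [hord_g, h3])
        exact_mod_cast h4
      · exact (han z hz hzh).meromorphicOrderAt_nonneg
  obtain ⟨C, hC, -⟩ := liouville L' hΦ hper hord
  exact ⟨C, fun z hz hzh => hC z (han z hz hzh).continuousAt⟩

end Fermat.Agent.S15.Dict.AN
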