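/-
S15 / Dict / AN : leading coefficient of the norm function `T` at `0`.  Architect helper260.
-/
import Fermat.Agent.S15.Dict.AN.Star.Defs

set_option autoImplicit false

namespace Fermat.Agent.S15.Dict.AN

open Filter Topology

variable {L L' : PeriodPair} {N : ℕ} {z0 : ℂ}

/-- `z² T(z) → ∏_{k=1}^{N-1} (℘(k z0) - e)`: split off the factor `k = 0`
(`Finset.range_eq_Ico`, `Finset.prod_eq_prod_Ico_succ_bot`, `N ≥ 1` as `N` is odd);
`z² (℘ z - e) → 1` (`tendsto_sq_mul_P_sub`, `l = 0`), the other factors are continuous at `0`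
(`analyticAt_P`, `D.notMem`; `tendsto_finset_prod`). -/
theorem CyclicData.tendsto_starT (D : CyclicData L L' N z0) (e : ℂ) :
    Tendsto (fun z => z ^ 2 * starT L N z0 e z) (𝓝[≠] (0 : ℂ))
      (𝓝 (∏ k ∈ Finset.Ico 1 N, (L.weierstrassP ((k : ℂ) * z0) - e))) := by
  have hN : 0 < N := D.odd.pos
  have h1 : Tendsto (fun z : ℂ => z ^ 2 * (L.weierstrassP z - e)) (𝓝[≠] (0 : ℂ)) (𝓝 1) := by
    have := tendsto_sq_mul_P_sub L (zero_mem L.lattice) e
    simpa only [sub_zero] using this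
  have h2 : Tendsto (fun z : ℂ => ∏ k ∈ Finset.Ico 1 N, (L.weierstrassP (z + (k : ℂ) * z0) - e))
      (𝓝[≠] (0 : ℂ)) (𝓝 (∏ k ∈ Finset.Ico 1 N, (L.weierstrassP ((k : ℂ) * z0) - e))) := by
    refine tendsto_finsetProd _ fun k hk => ?_
    have hk' := Finset.mem_Ico.1 hk
    have ha : AnalyticAt ℂ L.weierstrassP ((k : ℂ) * z0) := analyticAt_P L (D.notMem k hk'.1 hk'.2)
    have hc : ContinuousAt (fun z : ℂ => L.weierstrassP (z + (k : ℂ) * z0) - e) 0 := by
      refine ContinuousAt.sub ?_ continuousAt_const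
      refine ContinuousAt.comp (f := fun z : ℂ => z + (k : ℂ) * z0) (g := L.weierstrassP) ?_ ?_
      · simpa only [zero_add] using ha.continuousAt
      · fun_prop
    have := hc.tendsto.mono_left (nhdsWithin_le_nhds (s := {(0 : ℂ)}ᶜ))
    simpa only [zero_add] using this
  have h3 := h1.mul h2
  rw [one_mul] at h3
  refine h3.congr fun z => ?_
  rw [starT, Finset.range_eq_Ico, Finset.prod_eq_prod_Ico_succ_bot hN]
  simp only [Nat.cast_zero, zero_mul, add_zero, zero_add]
  ring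

end Fermat.Agent.S15.Dict.AN
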