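/-
S15 / Dict / AN : `℘_{L'} - e'` as a norm.  Architect helper260, proofs helper40.
-/
import Fermat.Agent.S15.Dict.AN.Star.Const
import Fermat.Agent.S15.Dict.AN.Star.Limit
import Fermat.Agent.S15.Dict.AN.Half.Const

set_option autoImplicit false

namespace Fermat.Agent.S15.Dict.AN

open Filter Topology

variable {L L' : PeriodPair} {N : ℕ} {z0 : ℂ}

/-- a half period of `L` is not in `L'` -/
theorem CyclicData.half_notMem (D : CyclicData L L' N z0) {h : ℂ} (h2 : 2 * h ∈ L.lattice)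
    (hn : h ∉ L.lattice) : h ∉ L'.lattice := by
  intro hL'
  apply hn
  obtain ⟨m, hm⟩ := D.odd
  have h1 : (N : ℂ) * h ∈ L.lattice := D.mul_mem hL'
  have h3 : (m : ℂ) * (2 * h) ∈ L.lattice := by
    have := Submodule.smul_mem L.lattice (m : ℤ) h2
    rwa [zsmul_eq_mul, Int.cast_natCast] at this
  have e : h = (N : ℂ) * h - (m : ℂ) * (2 * h) := by
    rw [hm]
    push_cast
    ring
  rw [e]
  exact sub_mem h1 h3

/-- the good points form a punctured neighbourhood of `0` -/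
theorem StarMain_eventually_good (L' : PeriodPair) {h : ℂ} (hh : h ∉ L'.lattice) :
    ∀ᶠ z in 𝓝[≠] (0 : ℂ), z ∉ L'.lattice ∧ z + h ∉ L'.lattice := by
  have h1 : ∀ᶠ z in 𝓝[≠] (0 : ℂ), z ∉ L'.lattice := by
    have hmem := L'.compl_lattice_sdiff_singleton_mem_nhds 0
    rw [eventually_nhdsWithin_iff]
    filter_upwards [hmem] with z hz hz0 hzL
    exact hz ⟨hzL, hz0⟩
  have h2 : ∀ᶠ z in 𝓝[≠] (0 : ℂ), z + h ∉ L'.lattice := by
    have hopen : IsOpen ((L'.lattice : Set ℂ)ᶜ) := L'.isClosed_lattice.isOpen_compl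
    have hc : ContinuousAt (fun z : ℂ => z + h) 0 := by fun_prop
    have hm : ((L'.lattice : Set ℂ)ᶜ) ∈ 𝓝 ((fun z : ℂ => z + h) 0) := by
      apply hopen.mem_nhds
      simpa using hh
    exact (hc.eventually hm).filter_mono nhdsWithin_le_nhds
  exact h1.and h2

/-- `(℘_{L'}(z) - ℘_{L'} h) ∏_{k=1}^{N-1} (℘_L(k z0) - ℘_L h) = ∏_{k=0}^{N-1} (℘_L(z + k z0) - ℘_L h)`.
Proof: let `C` be the constant of `star_const`, `κ' ≠ 0` that of `exists_half_const L'`.
For all good `z`: `T(z) κ' = T(z) (℘'(z+h) - e')(℘'(z) - e') = C (℘'(z) - e')`.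
Multiply by `z²` and let `z → 0` (the good `z` form a punctured neighbourhood of `0`:
`L'.compl_lattice_sdiff_singleton_mem_nhds`, and `z + h ∉ L'` near `0` because `h ∉ L'` and
`L'.isClosed_lattice`): `κ' ∏ = C` (`tendsto_starT`, `tendsto_sq_mul_P_sub`,
`tendsto_nhds_unique`).  Cancel `κ'`. -/
theorem CyclicData.star_main (D : CyclicData L L' N z0) {h : ℂ} (h2 : 2 * h ∈ L.lattice)
    (hn : h ∉ L.lattice) {z : ℂ} (hz : z ∉ L'.lattice) (hz' : z + h ∉ L'.lattice) :
    (L'.weierstrassP z - L'.weierstrassP h)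
        * ∏ k ∈ Finset.Ico 1 N, (L.weierstrassP ((k : ℂ) * z0) - L.weierstrassP h)
      = starT L N z0 (L.weierstrassP h) z := by
  have hh : h ∉ L'.lattice := D.half_notMem h2 hn
  obtain ⟨C, hC⟩ := D.star_const h2 hn
  obtain ⟨κ, hκ0, hκ⟩ := exists_half_const L' (D.le h2) hh
  have key : ∀ w, w ∉ L'.lattice → w + h ∉ L'.lattice →
      starT L N z0 (L.weierstrassP h) w * κ = C * (L'.weierstrassP w - L'.weierstrassP h) := by
    intro w hw hw'
    rw [← hκ w hw hw', ← hC w hw hw']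
    ring
  have t1 : Tendsto (fun w => w ^ 2 * starT L N z0 (L.weierstrassP h) w * κ) (𝓝[≠] (0 : ℂ))
      (𝓝 ((∏ k ∈ Finset.Ico 1 N, (L.weierstrassP ((k : ℂ) * z0) - L.weierstrassP h)) * κ)) :=
    (D.tendsto_starT (L.weierstrassP h)).mul_const κ
  have t2 : Tendsto (fun w => C * (w ^ 2 * (L'.weierstrassP w - L'.weierstrassP h)))
      (𝓝[≠] (0 : ℂ)) (𝓝 (C * 1)) := by
    have := tendsto_sq_mul_P_sub L' (zero_mem L'.lattice) (L'.weierstrassP h)
    simp only [sub_zero] at this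
    exact this.const_mul C
  have hev : (fun w => w ^ 2 * starT L N z0 (L.weierstrassP h) w * κ) =ᶠ[𝓝[≠] (0 : ℂ)]
      (fun w => C * (w ^ 2 * (L'.weierstrassP w - L'.weierstrassP h))) := by
    filter_upwards [StarMain_eventually_good L' hh] with w hw
    rw [mul_assoc, key w hw.1 hw.2]
    ring
  have hCeq : (∏ k ∈ Finset.Ico 1 N, (L.weierstrassP ((k : ℂ) * z0) - L.weierstrassP h)) * κ
      = C * 1 := tendsto_nhds_unique (t1.congr' hev) t2
  have hfin := key z hz hz'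
  rw [mul_one] at hCeq
  rw [← hCeq] at hfin
  apply mul_right_cancel₀ hκ0
  rw [hfin]
  ring

end Fermat.Agent.S15.Dict.AN
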