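/-
S15 / Dict / AN : `e₁' - e₂'` as a product.  Architect helper260.
-/
import Fermat.Agent.S15.Dict.AN.Star.Main
import Fermat.Agent.S15.Dict.AN.Half.Alg

set_option autoImplicit false

namespace Fermat.Agent.S15.Dict.AN

variable {L L' : PeriodPair} {N : ℕ} {z0 : ℂ} {h₁ h₂ h₃ : ℂ}

/-- For `1 ≤ k < N`: `(℘(h₁ + k z0) - e₂)(x_k - e₁) = (e₁ - e₂)(x_k - e₃)`, `x_k = ℘(k z0)`.
From `IsHalf.mul_eq` at `z = k z0`: `(℘(k z0 + h₁) - e₁)(x_k - e₁) = (e₁-e₂)(e₁-e₃)`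
(`k z0 + h₁ ∉ L` since `h₁ ∉ L'`). -/
theorem CyclicData.factor_eq (D : CyclicData L L' N z0) (H : IsHalf L h₁ h₂ h₃) {k : ℕ}
    (hk : 1 ≤ k) (hk' : k < N) :
    (L.weierstrassP (h₁ + (k : ℂ) * z0) - L.weierstrassP h₂)
        * (L.weierstrassP ((k : ℂ) * z0) - L.weierstrassP h₁)
      = (L.weierstrassP h₁ - L.weierstrassP h₂)
        * (L.weierstrassP ((k : ℂ) * z0) - L.weierstrassP h₃) := by
  have hz : (k : ℂ) * z0 ∉ L.lattice := D.notMem k hk hk'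
  have hz' : (k : ℂ) * z0 + h₁ ∉ L.lattice := by
    rw [add_comm]
    exact D.add_notMem (D.isHalf H).not₁ k
  have h := H.mul_eq hz hz'
  rw [add_comm] at h
  linear_combination h

/-- `(e₁' - e₂') ∏_k (x_k - e₂)(x_k - e₁) = (e₁ - e₂)^N ∏_k (x_k - e₃)`.
`star_main` with `h = h₂` at `z = h₁` (`h₁ ∉ L'`, `h₁ + h₂ ∉ L'` by `(D.isHalf H).add_notMem`);
`starT ... h₁ = (e₁ - e₂) ∏_{k=1}^{N-1} (℘(h₁ + k z0) - e₂)`; multiply by `∏ (x_k - e₁)` and use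
`factor_eq` (`Finset.prod_mul_distrib`, `Finset.prod_congr`, `Finset.prod_const`,
`Nat.card_Ico`). -/
theorem CyclicData.star_diff (D : CyclicData L L' N z0) (H : IsHalf L h₁ h₂ h₃) :
    (L'.weierstrassP h₁ - L'.weierstrassP h₂)
        * ∏ k ∈ Finset.Ico 1 N, ((L.weierstrassP ((k : ℂ) * z0) - L.weierstrassP h₂)
            * (L.weierstrassP ((k : ℂ) * z0) - L.weierstrassP h₁))
      = (L.weierstrassP h₁ - L.weierstrassP h₂) ^ N
        * ∏ k ∈ Finset.Ico 1 N, (L.weierstrassP ((k : ℂ) * z0) - L.weierstrassP h₃) := by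
  have hN : 0 < N := D.odd.pos
  have hm := D.star_main H.two₂ H.not₂ (D.isHalf H).not₁ (D.isHalf H).add_notMem
  have hT : starT L N z0 (L.weierstrassP h₂) h₁ = (L.weierstrassP h₁ - L.weierstrassP h₂)
      * ∏ k ∈ Finset.Ico 1 N, (L.weierstrassP (h₁ + (k : ℂ) * z0) - L.weierstrassP h₂) := by
    rw [starT, Finset.range_eq_Ico, Finset.prod_eq_prod_Ico_succ_bot hN]
    simp
  rw [hT] at hm
  have hf : ∏ k ∈ Finset.Ico 1 N, ((L.weierstrassP (h₁ + (k : ℂ) * z0) - L.weierstrassP h₂)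
        * (L.weierstrassP ((k : ℂ) * z0) - L.weierstrassP h₁))
      = (L.weierstrassP h₁ - L.weierstrassP h₂) ^ (N - 1)
        * ∏ k ∈ Finset.Ico 1 N, (L.weierstrassP ((k : ℂ) * z0) - L.weierstrassP h₃) := by
    rw [Finset.prod_congr rfl fun k hk =>
      D.factor_eq H (Finset.mem_Ico.1 hk).1 (Finset.mem_Ico.1 hk).2,
      Finset.prod_mul_distrib, Finset.prod_const, Nat.card_Ico]
  rw [Finset.prod_mul_distrib] at hf ⊢
  have hpow : (L.weierstrassP h₁ - L.weierstrassP h₂) ^ N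
      = (L.weierstrassP h₁ - L.weierstrassP h₂) * (L.weierstrassP h₁ - L.weierstrassP h₂) ^ (N - 1) := by
    rw [← pow_succ', Nat.sub_add_cancel hN]
  rw [hpow, ← mul_assoc, hm, mul_assoc, hf, mul_assoc]

/-- `x_k ≠ e₁`. -/
theorem CyclicData.P_ne_half (D : CyclicData L L' N z0) (H : IsHalf L h₁ h₂ h₃) {k : ℕ}
    (hk : 1 ≤ k) (hk' : k < N) :
    L.weierstrassP ((k : ℂ) * z0) ≠ L.weierstrassP h₁ := by
  have hz : (k : ℂ) * z0 ∉ L.lattice := D.notMem k hk hk'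
  have hz' : (k : ℂ) * z0 + h₁ ∉ L.lattice := by
    rw [add_comm]
    exact D.add_notMem (D.isHalf H).not₁ k
  exact H.P_ne hz hz'

end Fermat.Agent.S15.Dict.AN
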