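/-
S15 / Dict / AN : the product formula `Δ(L') ∏ ℘'(k z0)⁴ = Δ(L)^N`.  Architect helper260.
-/
import Fermat.Agent.S15.Dict.AN.Star.Diff

set_option autoImplicit false

namespace Fermat.Agent.S15.Dict.AN

variable {L L' : PeriodPair} {N : ℕ} {z0 : ℂ}

/-- Pure algebra.  `P_i = ∏_k (x_k - e_i) ≠ 0`; the three identities
`(e₁'-e₂') P₂ P₁ = (e₁-e₂)^N P₃`, `(e₁'-e₃') P₃ P₁ = (e₁-e₃)^N P₂`, `(e₂'-e₃') P₃ P₂ = (e₂-e₃)^N P₁`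
give `∏(e_i'-e_j') · P₁P₂P₃ = (∏(e_i-e_j))^N`. -/
theorem disc_alg (N : ℕ) (hN : 1 ≤ N) (d₁₂ d₁₃ d₂₃ d₁₂' d₁₃' d₂₃' P₁ P₂ P₃ Δ Δ' Q : ℂ)
    (hP₁ : P₁ ≠ 0) (hP₂ : P₂ ≠ 0) (hP₃ : P₃ ≠ 0)
    (h₁₂ : d₁₂' * (P₂ * P₁) = d₁₂ ^ N * P₃) (h₁₃ : d₁₃' * (P₃ * P₁) = d₁₃ ^ N * P₂)
    (h₂₃ : d₂₃' * (P₃ * P₂) = d₂₃ ^ N * P₁)
    (hΔ : Δ = 16 * (d₁₂ * d₁₃ * d₂₃) ^ 2) (hΔ' : Δ' = 16 * (d₁₂' * d₁₃' * d₂₃') ^ 2)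
    (hQ : Q = (4 ^ (N - 1) * (P₁ * P₂ * P₃)) ^ 2) :
    Δ' * Q = Δ ^ N := by
  have hP : P₁ * P₂ * P₃ ≠ 0 := mul_ne_zero (mul_ne_zero hP₁ hP₂) hP₃
  have key : d₁₂' * d₁₃' * d₂₃' * (P₁ * P₂ * P₃) = (d₁₂ * d₁₃ * d₂₃) ^ N := by
    apply mul_right_cancel₀ hP
    rw [mul_pow, mul_pow]
    calc d₁₂' * d₁₃' * d₂₃' * (P₁ * P₂ * P₃) * (P₁ * P₂ * P₃)
        = (d₁₂' * (P₂ * P₁)) * (d₁₃' * (P₃ * P₁)) * (d₂₃' * (P₃ * P₂)) := by ring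
      _ = d₁₂ ^ N * d₁₃ ^ N * d₂₃ ^ N * (P₁ * P₂ * P₃) := by
        rw [h₁₂, h₁₃, h₂₃]
        ring
  obtain ⟨n, rfl⟩ : ∃ n, N = n + 1 := ⟨N - 1, by omega⟩
  have h4 : ((4 : ℂ) ^ n) ^ 2 = 16 ^ n := by
    rw [← pow_mul, mul_comm, pow_mul]
    norm_num
  rw [hΔ, hΔ', hQ, Nat.add_sub_cancel]
  calc 16 * (d₁₂' * d₁₃' * d₂₃') ^ 2 * (4 ^ n * (P₁ * P₂ * P₃)) ^ 2
      = 16 * ((4 : ℂ) ^ n) ^ 2 * (d₁₂' * d₁₃' * d₂₃' * (P₁ * P₂ * P₃)) ^ 2 := by ring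
    _ = 16 * 16 ^ n * ((d₁₂ * d₁₃ * d₂₃) ^ (n + 1)) ^ 2 := by rw [key, h4]
    _ = (16 * (d₁₂ * d₁₃ * d₂₃) ^ 2) ^ (n + 1) := by ring

/-- **Product formula.**  `H := isHalf_std L`, `D.isHalf H`; `IsHalf.disc_eq` for `L` and `L'`;
`star_diff` for `H`, `H.swap₂₃`, `H.rot` (up to reordering factors: `Finset.prod_mul_distrib`);
`IsHalf.cubic` at `X = x_k` gives
`∏_k (4x_k³ - g₂x_k - g₃)² = (4^(N-1) P₁P₂P₃)²`; `P_i ≠ 0` by `Finset.prod_ne_zero_iff` and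
`P_ne_half`; conclude by `disc_alg`. -/
theorem CyclicData.disc_eq (D : CyclicData L L' N z0) :
    (L'.g₂ ^ 3 - 27 * L'.g₃ ^ 2)
        * ∏ k ∈ Finset.Ico 1 N, (4 * L.weierstrassP ((k : ℂ) * z0) ^ 3
            - L.g₂ * L.weierstrassP ((k : ℂ) * z0) - L.g₃) ^ 2
      = (L.g₂ ^ 3 - 27 * L.g₃ ^ 2) ^ N := by
  have H := isHalf_std L
  have hne : ∀ {a b c : ℂ}, IsHalf L a b c →
      ∏ k ∈ Finset.Ico 1 N, (L.weierstrassP ((k : ℂ) * z0) - L.weierstrassP a) ≠ 0 := by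
    intro a b c H'
    rw [Finset.prod_ne_zero_iff]
    intro k hk
    rw [Finset.mem_Ico] at hk
    exact sub_ne_zero.2 (D.P_ne_half H' hk.1 hk.2)
  have h₁₂ := D.star_diff H
  have h₁₃ := D.star_diff H.swap₂₃
  have h₂₃ := D.star_diff H.rot
  rw [Finset.prod_mul_distrib] at h₁₂ h₁₃ h₂₃
  refine disc_alg N D.odd.pos _ _ _ _ _ _ _ _ _ _ _ _ (hne H) (hne H.swap₁₂) (hne H.rot.rot)
    h₁₂ h₁₃ h₂₃ H.disc_eq (D.isHalf H).disc_eq ?_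
  rw [Finset.prod_pow]
  congr 1
  rw [Finset.prod_congr rfl fun (k : ℕ) _ => H.cubic (L.weierstrassP ((k : ℂ) * z0)),
    Finset.prod_mul_distrib, Finset.prod_mul_distrib, Finset.prod_mul_distrib, Finset.prod_const,
    Nat.card_Ico]

end Fermat.Agent.S15.Dict.AN
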